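import Fermat.Agent.S36.Mod3.H370.VT

/-!
# S36 / MOD3 / REG — the Eisenstein residue on the middle component (helper775)

`hEis` of helper922's `h922_hres_mid`, on the concrete objects, UNCONDITIONAL (`Std` + `Objs`):

  `π ^ (q - 1) / q  ≡  α(g₁) / α(j ^ (q²) - j)   mod 𝔪_{V₂}`,     `π = β(j_q) - α(j) = j_{q²} - j`,

where `g₁ ∈ V₁'` (level `M q`) has `t`-expansion `U = Ψ(j) / q`, the Eisenstein constant of
helper83 (`h83_eisenstein`), `Ū · θ j̄ = (j̄ - j̄^{q²}) (θ j̄)^q`.

DIRECT route (no `EisData`, no minimal polynomial, no `Unram`): the formal decomposition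
`Ψ = (X - j^{q²}) (X - j)^{q-1} + q G` over the integer series of `F_{Mq}` is evaluated at
`j_{q²}` INSIDE `V₂`; `G(j_{q²}) ≡ G(j)` because `π ∈ 𝔪_{V₂}` (`kron₂`) and `j_{q²} - j^{q²}` is
a unit of `V₂` because `j^{q²} - j` is a Gauss unit.
-/

set_option autoImplicit false
set_option linter.unusedSectionVars false
set_option linter.style.haveILetI false
set_option synthInstance.maxHeartbeats 400000
set_option maxHeartbeats 1600000

noncomputable section

namespace Fermat.Agent.S36.Mod3.H775.Res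

open ModularCurve Polynomial Fermat.Agent.A2.Mod
open Fermat.Agent.S36.H370 Fermat.Agent.S36.Mod3.H370 Fermat.Agent.S36.Eng
open Fermat.Agent.S36.H83 Fermat.Agent.S28

/-! ## The abstract residue computation -/

section Abstract

variable {L : Type*} [Field L]

/-- If `(y - a) (y - c)^n + q G(y) = 0` in a valuation ring `V`, `y - c ∈ 𝔪_V` and `a - c` is a
unit, then `(y - c)^n / q ≡ G(c) / (a - c)` modulo `𝔪_V`. -/
theorem eis_residue (V : ValuationSubring L) (G : Polynomial V) (y c a : V) (qq : L) (n : ℕ)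
    (hq0 : qq ≠ 0)
    (hrel : ((y : L) - a) * ((y : L) - c) ^ n + qq * ((G.eval y : V) : L) = 0)
    (hπ : (y : L) - c ∈ V.nonunits)
    (hac0 : (a : L) - c ≠ 0) (hac : ((a : L) - c)⁻¹ ∈ V) :
    ((y : L) - c) ^ n * qq⁻¹ - ((G.eval c : V) : L) * ((a : L) - c)⁻¹ ∈ V.nonunits := by
  obtain ⟨h, hh⟩ := Polynomial.sub_dvd_eval_sub y c G
  have hh' : ((G.eval y : V) : L) = ((G.eval c : V) : L) + ((y : L) - c) * (h : L) := by
    have := congrArg (fun z : V => (z : L)) hh
    simp only [AddSubgroupClass.coe_sub, MulMemClass.coe_mul] at this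
    linear_combination this
  -- `y - a` is a unit
  have hva : V.valuation ((a : L) - c) = 1 := by
    refine le_antisymm ((V.valuation_le_one_iff _).mpr (sub_mem a.2 c.2)) ?_
    have h1 := (V.valuation_le_one_iff _).mpr hac
    rw [map_inv₀] at h1
    have h0 : V.valuation ((a : L) - c) ≠ 0 := by
      rw [Ne, Valuation.zero_iff]
      exact hac0
    exact (inv_le_one₀ (zero_lt_iff.mpr h0)).mp h1
  have hvπ : V.valuation ((y : L) - c) < 1 := (V.mem_nonunits_iff).mp hπ
  have hvy : V.valuation ((y : L) - a) = 1 := by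
    have e : (y : L) - a = -((a : L) - c) + ((y : L) - c) := by ring
    rw [e]
    have h2 : V.valuation (-((a : L) - c)) = 1 := by rw [Valuation.map_neg, hva]
    rw [Valuation.map_add_eq_of_lt_left]
    · exact h2
    · rw [h2]
      exact hvπ
  have hya0 : (y : L) - a ≠ 0 := by
    intro h0
    rw [h0, map_zero] at hvy
    exact zero_ne_one hvy
  have hyai : ((y : L) - a)⁻¹ ∈ V := by
    rw [← V.valuation_le_one_iff, map_inv₀, hvy, inv_one]
  set π : L := (y : L) - c with hπdef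
  set Gc : L := ((G.eval c : V) : L) with hGc
  have hrel' : ((y : L) - a) * π ^ n + qq * (Gc + π * (h : L)) = 0 := by
    rw [← hh']
    exact hrel
  have h1 : π ^ n * qq⁻¹ = -(Gc + π * (h : L)) * ((y : L) - a)⁻¹ := by
    field_simp
    linear_combination hrel'
  have hya : (y : L) - a = π - ((a : L) - c) := by
    rw [hπdef]
    ring
  have key : π ^ n * qq⁻¹ - Gc * ((a : L) - c)⁻¹
      = π * (-(Gc + (h : L) * ((a : L) - c)) * (((y : L) - a)⁻¹ * ((a : L) - c)⁻¹)) := by
    rw [h1]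
    field_simp
    rw [hya]
    ring
  rw [key, ValuationSubring.mem_nonunits_iff, map_mul]
  refine mul_lt_one_of_lt_of_le hvπ ((V.valuation_le_one_iff _).mpr ?_)
  refine mul_mem (neg_mem (add_mem (G.eval c).2 (mul_mem h.2 (sub_mem a.2 c.2)))) ?_
  exact mul_mem hyai hac

end Abstract

/-! ## The integer series lying in `F_{N,E}` -/

section IntSeries

variable (E : IntermediateField ℚ Qb)

/-- The integer series lying in `F_{N,E}`. -/
def intS (N : ℕ) : Subring (LaurentSeries ℤ) :=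
  (FE E N).toSubfield.toSubring.comap (H972.castE E)

theorem mem_intS {N : ℕ} {U : LaurentSeries ℤ} :
    U ∈ intS E N ↔ H972.castE E U ∈ FE E N := Iff.rfl

/-- `intS` is saturated. -/
theorem mem_intS_of_natCast_mul {N : ℕ} {p : ℕ} (hp : p ≠ 0) {U : LaurentSeries ℤ}
    (h : (p : LaurentSeries ℤ) * U ∈ intS E N) : U ∈ intS E N := by
  rw [mem_intS] at h ⊢
  rw [map_mul, map_natCast] at h
  have hp0 : ((p : ℕ) : LaurentSeries E) ≠ 0 := by
    have : CharZero (LaurentSeries E) :=
      charZero_of_injective_algebraMap (algebraMap E (LaurentSeries E)).injective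
    exact Nat.cast_ne_zero.mpr hp
  have h1 : ((p : ℕ) : LaurentSeries E) ∈ FE E N := natCast_mem _ p
  have h2 : ((p : ℕ) : LaurentSeries E)⁻¹ * ((p : LaurentSeries E) * H972.castE E U) ∈ FE E N :=
    (FE E N).mul_mem ((FE E N).inv_mem h1) h
  rwa [inv_mul_cancel_left₀ hp0] at h2

theorem jq_mem_intS (N d : ℕ) [NeZero d] (hd : d ∣ N) :
    qExpand ℤ d (jqModC ℤ) ∈ intS E N := by
  rw [mem_intS, ← H972.coe_jE' E N d hd]
  exact (jE E N d hd).2

theorem j_mem_intS (N : ℕ) : jqModC ℤ ∈ intS E N := by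
  have := jq_mem_intS E N 1 (one_dvd _)
  rwa [qExpand_one_apply] at this

variable {E} {P : ValuationSubring Qb}

/-- `intS → V∞`. -/
def toV {N : ℕ} {V : ValuationSubring (FE E N)} (hV : IsVinf P E N V) : intS E N →+* V :=
  (((H972.castE E).comp (intS E N).subtype).codRestrict (FE E N) (fun U => U.2)).codRestrict V
    (fun _ => H972.mem_of_castE hV rfl)

theorem coe_toV {N : ℕ} {V : ValuationSubring (FE E N)} (hV : IsVinf P E N V)
    (U : intS E N) :
    (((toV hV U : V) : FE E N) : LaurentSeries E) = H972.castE E (U : LaurentSeries ℤ) := rfl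

end IntSeries

/-! ## The polynomials over the integer series -/

section Polys

variable (E : IntermediateField ℚ Qb) (N q : ℕ) [NeZero q]

/-- `j` as an element of `intS`. -/
def jS : intS E N := ⟨jqModC ℤ, j_mem_intS E N⟩

theorem coe_jS : ((jS E N : intS E N) : LaurentSeries ℤ) = jqModC ℤ := rfl

/-- `Ψ = Φ_q(j_q, Y) / (Y - j)` and its Eisenstein-split form, over the integer series lying in
`F_{N,E}` (`q ∣ N`). -/
theorem exists_polys [hq : Fact q.Prime] (Φ : ModPolyData q) (hqN : q ∣ N) :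
    ∃ Ψ₀ G₀ : Polynomial (intS E N),
      Ψ₀.map (intS E N).subtype = h83_eisPsi q Φ ∧
      Ψ₀ = (X - C (jS E N ^ (q ^ 2))) * (X - C (jS E N)) ^ (q - 1)
        + C (q : intS E N) * G₀ ∧
      (h83_eisPsi q Φ).eval (jqModC ℤ)
        = (q : LaurentSeries ℤ) * ((G₀.eval (jS E N) : intS E N) : LaurentSeries ℤ) ∧
      h83_red q ((jS E N ^ (q ^ 2) - jS E N : intS E N) : LaurentSeries ℤ) ≠ 0 := by
  set S := intS E N with hS
  have hinj : Function.Injective S.subtype := Subtype.val_injective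
  obtain ⟨G, hΨ, hev, -, hsub⟩ := h83_eisPsi_eq_add q Φ
  obtain ⟨Ψ₀, -, hmap⟩ := h83_eisPsi_mem_lifts q Φ S
    (j_mem_intS E N) (jq_mem_intS E N q hqN)
  set D : Polynomial S := Ψ₀ - (X - C (jS E N ^ (q ^ 2))) * (X - C (jS E N)) ^ (q - 1)
    with hD
  have hDmap : D.map S.subtype = C (q : LaurentSeries ℤ) * G := by
    rw [hD, Polynomial.map_sub, hmap, hΨ]
    simp only [Polynomial.map_mul, Polynomial.map_pow, Polynomial.map_sub, Polynomial.map_X,
      Polynomial.map_C, map_pow]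
    rw [show S.subtype (jS E N) = jqModC ℤ from rfl]
    ring
  have hcoef : ∀ n, G.coeff n ∈ S := by
    intro n
    apply mem_intS_of_natCast_mul E (NeZero.ne q)
    have h1 := congrArg (fun f => f.coeff n) hDmap
    simp only [Polynomial.coeff_map, Polynomial.coeff_C_mul] at h1
    rw [← h1]
    exact (D.coeff n).2
  obtain ⟨G₀, hG₀⟩ : ∃ G₀ : Polynomial S, G₀.map S.subtype = G := by
    rw [← Polynomial.mem_lifts, Polynomial.lifts_iff_coeff_lifts]
    exact fun n => ⟨⟨G.coeff n, hcoef n⟩, rfl⟩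
  refine ⟨Ψ₀, G₀, hmap, ?_, ?_, hsub⟩
  · apply Polynomial.map_injective S.subtype hinj
    rw [hmap, hΨ]
    have hq1 : (C (q : ↥S) * G₀).map S.subtype = C (q : LaurentSeries ℤ) * G := by
      rw [Polynomial.map_mul, Polynomial.map_C, map_natCast, hG₀]
    rw [Polynomial.map_add, hq1]
    simp only [Polynomial.map_mul, Polynomial.map_pow, Polynomial.map_sub,
      Polynomial.map_X, Polynomial.map_C, map_pow]
    rw [show S.subtype (jS E N) = jqModC ℤ from rfl]
    ring
  · have : ((G₀.eval (jS E N) : S) : LaurentSeries ℤ) = G.eval (jqModC ℤ) := by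
      rw [← hG₀, Polynomial.eval_map]
      exact (Polynomial.eval₂_at_apply S.subtype (jS E N)).symm
    rw [this]
    exact hev

end Polys

/-! ## The concrete statement -/

section Main

variable {P : ValuationSubring Qb} {E : IntermediateField ℚ Qb} {M q : ℕ} [NeZero M] [NeZero q]
  [NeZero (M * q)] {w : RE P E}

/-- **The Eisenstein residue on the middle component** (`hEis` of `h922_hres_mid` at
`M₁ = M q`, `V = V₂`), together with its companions `hU`, `hg₁`. -/
theorem eis_mid (hStd : Std P E M q w)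
    {V₁' V₂' : ValuationSubring (FE E (M * q))}
    {V₁ V₂ V₃ : ValuationSubring (FE E (M * q * q))}
    {W' : FE E (M * q) ≃ₐ[E] FE E (M * q)}
    {W : FE E (M * q * q) ≃ₐ[E] FE E (M * q * q)}
    (hO : Objs P E M q V₁' V₂' V₁ V₂ V₃ W' W) :
    ∃ (U : LaurentSeries ℤ) (g₁ : FE E (M * q)),
      (coeffMap (Int.castRingHom (ZMod q)) U * thetaL (ZMod q) (jqModC (ZMod q))
        = (jqModC (ZMod q) - jqModC (ZMod q) ^ (q ^ 2))
            * thetaL (ZMod q) (jqModC (ZMod q)) ^ q) ∧
      coeffMap (Int.castRingHom (ZMod q)) U ≠ 0 ∧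
      (g₁ : LaurentSeries E) = coeffMap (Int.castRingHom E) U ∧
      g₁ ∈ V₁' ∧
      (βE E (M * q) q (jE E (M * q) q (dvd_mul_left q M))
            - αE E (M * q) q (jE E (M * q) 1 (one_dvd _))) ^ (q - 1)
          * (algebraMap E (FE E (M * q * q)) (q : E))⁻¹
        - αE E (M * q) q g₁
          * (αE E (M * q) q (jE E (M * q) 1 (one_dvd _) ^ (q ^ 2)
              - jE E (M * q) 1 (one_dvd _)))⁻¹
        ∈ V₂.nonunits := by
  have hS : Setting P E M q w :=
    ⟨hStd.q_prime, hStd.q_not_dvd, NeZero.ne M, hStd.lies_over, hStd.unram.1.dvr, hStd.unif⟩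
  haveI := hS.dvr
  haveI : Fact q.Prime := ⟨hStd.q_prime⟩
  have hq := hStd.q_prime
  have hqM : q ∣ M * q := dvd_mul_left q M
  have hVT := leafVT P E M q w hStd V₁' V₂' V₁ V₂ V₃ W' W hO
  have hαV₂ : ∀ k, αE E (M * q) q k ∈ V₂ ↔ k ∈ V₁' := fun k => by
    rw [← hO.mid, ValuationSubring.mem_comap]
    rfl
  obtain ⟨Φ⟩ := Fermat.Agent.S28.H326.nonempty_modPolyData q hq
  obtain ⟨Ψ₀, G₀, hmap, hdec, hev, hsub⟩ := exists_polys E (M * q) q Φ hqM
  obtain ⟨U, hU1, -, hU3, hU0⟩ := h83_eisenstein q Φ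
  have hGU : ((G₀.eval (jS E (M * q)) : intS E (M * q)) : LaurentSeries ℤ) = U :=
    mul_left_cancel₀ (h83_natCast_ne_zero q) (hev.symm.trans hU1)
  -- the ring homomorphisms
  let t1 : intS E (M * q) →+* V₁' := toV hO.vinf'
  let ρ : V₁' →+* V₂ :=
    ((αE E (M * q) q : FE E (M * q) →+* FE E (M * q * q)).comp V₁'.subtype).codRestrict V₂
      (fun k => (hαV₂ _).mpr k.2)
  let τ : intS E (M * q) →+* V₂ := ρ.comp t1
  have hτcoe : ∀ u : intS E (M * q),
      ((τ u : V₂) : FE E (M * q * q)) = αE E (M * q) q ((t1 u : V₁') : FE E (M * q)) :=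
    fun _ => rfl
  have hι : (H972.valV V₂).comp τ = (H972.castE E).comp (intS E (M * q)).subtype := by
    refine RingHom.ext fun u => ?_
    show ((αE E (M * q) q ((t1 u : V₁') : FE E (M * q)) : FE E (M * q * q)) : LaurentSeries E)
      = H972.castE E (u : LaurentSeries ℤ)
    rw [coe_heckeAlphaBar]
    rfl
  -- the elements
  have hj1 : ((t1 (jS E (M * q)) : V₁') : FE E (M * q)) = jE E (M * q) 1 (one_dvd _) := by
    apply Subtype.ext
    rw [coe_toV, coe_jS, H972.coe_jE', qExpand_one_apply]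
  have hc : ((τ (jS E (M * q)) : V₂) : FE E (M * q * q)) = j1 E M q := by
    rw [hτcoe, hj1]
    exact H553.αE_jE E (M * q) q 1 (one_dvd _)
  have hπ : jqq E M q - j1 E M q ∈ V₂.nonunits := hVT.kron₂.2
  have hj1V : j1 E M q ∈ V₂ := by
    rw [← hc]
    exact (τ (jS E (M * q))).2
  have hyV : jqq E M q ∈ V₂ := by
    have h1 : jqq E M q = (jqq E M q - j1 E M q) + j1 E M q := by ring
    rw [h1]
    exact add_mem (V₂.nonunits_le hπ) hj1V
  set y : V₂ := ⟨jqq E M q, hyV⟩ with hy
  -- the relation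
  have hroot : (Ψ₀.map τ).eval y = 0 := by
    apply H972.valV_injective V₂
    rw [map_zero, ← Polynomial.eval₂_hom, Polynomial.eval₂_map, hι, ← Polynomial.eval₂_map,
      hmap]
    have hyc : H972.valV V₂ y = H972.castE E (qExpand ℤ q (qExpand ℤ q (jqModC ℤ))) := by
      rw [H972.valV_apply, qExpand_qExpand]
      exact H972.coe_jE' E (M * q * q) (q * q) ⟨M, by ring⟩
    rw [hyc, Polynomial.eval₂_hom, h83_eisPsi_eval_jpp, map_zero]
  have hrel : ((y : FE E (M * q * q)) - (τ (jS E (M * q) ^ (q ^ 2)) : V₂))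
        * ((y : FE E (M * q * q)) - (τ (jS E (M * q)) : V₂)) ^ (q - 1)
      + ((q : ℕ) : FE E (M * q * q)) * (((G₀.map τ).eval y : V₂) : FE E (M * q * q)) = 0 := by
    have h1 := hroot
    rw [hdec] at h1
    simp only [Polynomial.map_add, Polynomial.map_mul, Polynomial.map_pow, Polynomial.map_sub,
      Polynomial.map_X, Polynomial.map_C, Polynomial.eval_add, Polynomial.eval_mul,
      Polynomial.eval_pow, Polynomial.eval_sub, Polynomial.eval_X, Polynomial.eval_C,
      map_natCast] at h1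
    have h2 := congrArg (fun z : V₂ => (z : FE E (M * q * q))) h1
    simpa using h2
  -- the Gauss unit `j^(q²) - j`
  set k : FE E (M * q) :=
    jE E (M * q) 1 (one_dvd _) ^ (q ^ 2) - jE E (M * q) 1 (one_dvd _) with hk
  have hkcoe : (k : LaurentSeries E) = H972.castE E (jqModC ℤ ^ (q ^ 2) - jqModC ℤ) := by
    have h1 : (k : LaurentSeries E)
        = ((jE E (M * q) 1 (one_dvd _) : FE E (M * q)) : LaurentSeries E) ^ (q ^ 2)
          - ((jE E (M * q) 1 (one_dvd _) : FE E (M * q)) : LaurentSeries E) := rfl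
    rw [h1, H972.coe_jE', qExpand_one_apply, map_sub, map_pow]
  have hk0 : k ≠ 0 := by
    intro h0
    have h1 : H972.castE E (jqModC ℤ ^ (q ^ 2) - jqModC ℤ) = 0 := by
      rw [← hkcoe, h0]
      rfl
    have h2 : jqModC ℤ ^ (q ^ 2) - jqModC ℤ = 0 :=
      H972.castE_injective E (h1.trans (map_zero _).symm)
    apply hsub
    show h83_red q (jqModC ℤ ^ (q ^ 2) - jqModC ℤ) = 0
    rw [h2, map_zero]
  have hkinv : k⁻¹ ∈ V₁' :=
    H972.inv_mem_of_castE hq hStd.lies_over hO.vinf' hkcoe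
      (H972.exists_not_dvd_of_red_ne_zero q hsub)
  have hac_eq : ((τ (jS E (M * q) ^ (q ^ 2)) : V₂) : FE E (M * q * q))
      - (τ (jS E (M * q)) : V₂) = αE E (M * q) q k := by
    rw [map_pow τ, SubmonoidClass.coe_pow, hc, hk, map_sub, map_pow,
      H553.αE_jE E (M * q) q 1 (one_dvd _)]
    rfl
  have hq0 : ((q : ℕ) : FE E (M * q * q)) ≠ 0 := Nat.cast_ne_zero.mpr hq.ne_zero
  have hres := eis_residue V₂ (G₀.map τ) y (τ (jS E (M * q))) (τ (jS E (M * q) ^ (q ^ 2)))
    ((q : ℕ) : FE E (M * q * q)) (q - 1) hq0 hrel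
    (by rw [hc]; exact hπ)
    (by rw [hac_eq]; exact (_root_.map_ne_zero _).mpr hk0)
    (by
      rw [hac_eq, ← map_inv₀]
      exact (hαV₂ _).mpr hkinv)
  -- the function `g₁`
  refine ⟨U, ((t1 (G₀.eval (jS E (M * q))) : V₁') : FE E (M * q)), hU3, hU0, ?_, ?_, ?_⟩
  · rw [coe_toV, hGU]
    rfl
  · exact (t1 (G₀.eval (jS E (M * q)))).2
  · have hG : (((G₀.map τ).eval (τ (jS E (M * q))) : V₂) : FE E (M * q * q))
        = αE E (M * q) q ((t1 (G₀.eval (jS E (M * q))) : V₁') : FE E (M * q)) := by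
      rw [Polynomial.eval_map, Polynomial.eval₂_at_apply]
      rfl
    rw [hG, hac_eq, hc] at hres
    have hβ : βE E (M * q) q (jE E (M * q) q hqM) = jqq E M q := beta_jq_eq370
    have hα : αE E (M * q) q (jE E (M * q) 1 (one_dvd _)) = j1 E M q :=
      H553.αE_jE E (M * q) q 1 (one_dvd _)
    rw [hβ, hα, map_natCast]
    exact hres

end Main

end Fermat.Agent.S36.Mod3.H775.Res

end
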