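import Fermat.Agent.S36.Mod3.H775.EisRes
import Fermat.Agent.S36.H922.Conc
import Fermat.Agent.S36.Mod3.H356.RegU

/-!
# S36 / MOD3 / REG — (R-RES) on the concrete objects (helper775)

`hresJ : Std → Objs → (π^(12(q-1)) - α(e) · U_m) · U_m⁻¹ ∈ 𝔪_{V₂}`, the conclusion of helper922's
`h922_hres_mid` at `M₁ = M q`, `V = V₂`, `U_m = H356.Um E M q = α(D)/β(D)`, UNCONDITIONAL;
TEXTUALLY the hypothesis `hres` of `H27.principalAt_mid_t4_conc` / `H890.principalAt_mid_t9_conc`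
with `U₀ = H356.Um E M q`, `hqM = dvd_mul_left q M`.

Inputs: `Res.eis_mid` (`hEis`, this directory), `H438.dE_unit_vzero` + `comap_β₂` (`β(D)` is a unit
of `V₂`), the Gauss unit `j^(q²) - j`, `q ∈ 𝔪_{V₂}`.
-/

set_option autoImplicit false
set_option linter.unusedSectionVars false
set_option linter.style.haveILetI false
set_option synthInstance.maxHeartbeats 400000
set_option maxHeartbeats 1600000

noncomputable section

namespace Fermat.Agent.S36.Mod3.H775.Res

open ModularCurve Polynomial Fermat.Agent.A2.Mod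
open Fermat.Agent.S36.H370 Fermat.Agent.S36.Mod3.H370 Fermat.Agent.S36.Eng
open Fermat.Agent.S36.H83 Fermat.Agent.S28

section Main

variable {P : ValuationSubring Qb} {E : IntermediateField ℚ Qb} {M q : ℕ} [NeZero M] [NeZero q]
  [NeZero (M * q)] {w : RE P E}

/-- `q ∈ 𝔪_{V∞}` (any level). -/
theorem natCast_mem_nonunits_vinf (hStd : Std P E M q w) {N : ℕ} [NeZero N]
    {V : ValuationSubring (FE E N)} (hV : IsVinf P E N V) :
    algebraMap E (FE E N) (q : E) ∈ V.nonunits := by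
  have hdvr := hStd.unram.1.dvr
  have hL2 := H553.vinfBasic P E w N (NeZero.ne N) hdvr hStd.unif V hV
  have hq0 : ((q : ℕ) : E) ≠ 0 := Nat.cast_ne_zero.mpr hStd.q_prime.ne_zero
  have hqP : ((q : ℕ) : Qb) ∈ P.nonunits := hStd.lies_over
  have hvq : P.valuation ((q : ℕ) : Qb) < 1 := (ValuationSubring.mem_nonunits_iff P).mp hqP
  rw [ValuationSubring.mem_nonunits_iff_or]
  refine Or.inr fun hmem => ?_
  rw [← map_inv₀, hL2.2.1] at hmem
  have h1 : algebraMap E Qb ((q : E))⁻¹ ∈ P := hmem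
  rw [map_inv₀, map_natCast, ← ValuationSubring.valuation_le_one_iff, map_inv₀] at h1
  have hv0 : P.valuation ((q : ℕ) : Qb) ≠ 0 := by
    rw [Ne, Valuation.zero_iff]
    exact Nat.cast_ne_zero.mpr hStd.q_prime.ne_zero
  have h2 : 1 ≤ P.valuation ((q : ℕ) : Qb) := (inv_le_one₀ (zero_lt_iff.mpr hv0)).mp h1
  exact absurd hvq (not_lt.mpr h2)

/-- **(R-RES) on the concrete objects**: the residue of `π^(12(q-1)) / U_m` along the middle
component. -/
theorem hresJ (hStd : Std P E M q w)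
    {V₁' V₂' : ValuationSubring (FE E (M * q))}
    {V₁ V₂ V₃ : ValuationSubring (FE E (M * q * q))}
    {W' : FE E (M * q) ≃ₐ[E] FE E (M * q)}
    {W : FE E (M * q * q) ≃ₐ[E] FE E (M * q * q)}
    (hO : Objs P E M q V₁' V₂' V₁ V₂ V₃ W' W) :
    ((βE E (M * q) q (jE E (M * q) q (dvd_mul_left q M))
          - αE E (M * q) q (jE E (M * q) 1 (one_dvd _))) ^ (12 * (q - 1))
        - αE E (M * q) q ((jE E (M * q) 1 (one_dvd _) ^ 4
            * (jE E (M * q) 1 (one_dvd _) - 1728) ^ 3) ^ (2 * (q - 1)))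
          * Mod3.H356.Um E M q) * (Mod3.H356.Um E M q)⁻¹
      ∈ V₂.nonunits := by
  have hS : Setting P E M q w :=
    ⟨hStd.q_prime, hStd.q_not_dvd, NeZero.ne M, hStd.lies_over, hStd.unram.1.dvr, hStd.unif⟩
  haveI := hS.dvr
  haveI : Fact q.Prime := ⟨hStd.q_prime⟩
  have hq := hStd.q_prime
  have hqM : q ∣ M * q := dvd_mul_left q M
  have hT := leafTable P E M q w hStd V₁' V₂' V₁ V₂ V₃ W' W hO
  have hαV₂ : ∀ k, αE E (M * q) q k ∈ V₂ ↔ k ∈ V₁' := fun k => by
    rw [← hO.mid, ValuationSubring.mem_comap]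
    rfl
  have hβ₂ : ∀ f, βE E (M * q) q f ∈ V₂ ↔ f ∈ V₂' := fun f => by
    rw [← hT.comap_β₂, ValuationSubring.mem_comap]
    rfl
  have hαn₂ : ∀ f, αE E (M * q) q f ∈ V₂.nonunits ↔ f ∈ V₁'.nonunits := fun f => by
    rw [← hT.comap_α₂, mem_nonunits_comap_hom]
    rfl
  obtain ⟨U, g₁, hU, -, hg₁, -, hEis⟩ := eis_mid hStd hO
  -- `q ∈ 𝔪_{V₂}`
  have hqV : algebraMap E (FE E (M * q * q)) (q : E) ∈ V₂.nonunits := by
    have h1 : algebraMap E (FE E (M * q * q)) (q : E)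
        = αE E (M * q) q (algebraMap E (FE E (M * q)) (q : E)) :=
      ((αE E (M * q) q).commutes _).symm
    rw [h1, hαn₂]
    exact natCast_mem_nonunits_vinf hStd hO.vinf'
  -- `β(D)` is a unit of `V₂`
  have hD := H438.dE_unit_vzero P E (M * q) q M (mul_comm M q) hqM W' hO.vinf' hO.fricke'
  rw [← hO.vzero'] at hD
  have hβD : βE E (M * q) q (H438.dE E (M * q) q hqM) ∈ V₂ := (hβ₂ _).mpr hD.1
  have hβD' : (βE E (M * q) q (H438.dE E (M * q) q hqM))⁻¹ ∈ V₂ := by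
    rw [← map_inv₀]
    exact (hβ₂ _).mpr hD.2
  -- the Gauss unit
  have hac : (αE E (M * q) q (jE E (M * q) 1 (one_dvd _) ^ (q ^ 2)
      - jE E (M * q) 1 (one_dvd _)))⁻¹ ∈ V₂ := by
    rw [← map_inv₀, hαV₂]
    obtain ⟨G, -, -, -, hsub⟩ := h83_eisPsi_eq_add q (Classical.choice
      (Fermat.Agent.S28.H326.nonempty_modPolyData q hq))
    refine H972.inv_mem_of_castE hq hStd.lies_over hO.vinf' ?_
      (H972.exists_not_dvd_of_red_ne_zero q hsub)
    have h1 : ((jE E (M * q) 1 (one_dvd _) ^ (q ^ 2) - jE E (M * q) 1 (one_dvd _) :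
        FE E (M * q)) : LaurentSeries E)
        = ((jE E (M * q) 1 (one_dvd _) : FE E (M * q)) : LaurentSeries E) ^ (q ^ 2)
          - ((jE E (M * q) 1 (one_dvd _) : FE E (M * q)) : LaurentSeries E) := rfl
    rw [h1, H972.coe_jE', qExpand_one_apply, map_sub, map_pow]
  exact Fermat.Agent.S36.H922.h922_hres_mid P E (M * q) q hqM V₁' hO.vinf' V₂
    (fun f hf => (hαV₂ f).mpr hf) hqV hβD hβD' hac U hU g₁ hg₁ hEis

end Main

end Fermat.Agent.S36.Mod3.H775.Res

end
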