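import Fermat.Agent.S36.Mod3.H370.VT
import Fermat.Agent.A2.Mod.H873.L13

/-!
# S36 / MOD3 — the leaf `Mod3.LeafVal` (helper775): verbatim, unconditional

`PartVal` for the concrete objects, from

* helper972 `H972.exists_eisData` / `H972.mod3_alpha_main` (main): the middle valuation ring,
  its uniformiser `π = j_{q²} - j`, `π ^ (q - 1) = w · unit`;
* helper370 `leafTable`, `leafVT` (main): the six `comap`, `pi_unif`, `pi_pow`;
* L2 (`H553.vinfBasic`), L6 (`H553.vzeroNe`), rank one of `V∞` (`H972.arch_vinf`).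

New here: rank one of ANY valuation ring over `V₁'` along `α` (`arch_over775`), hence the three
valuation rings are discrete valuation rings.
-/

set_option autoImplicit false
set_option linter.unusedSectionVars false
set_option linter.style.haveILetI false
set_option synthInstance.maxHeartbeats 400000
set_option maxHeartbeats 1600000

noncomputable section

namespace Fermat.Agent.S36.Mod3.H775

open ModularCurve HahnSeries Polynomial Fermat.Agent.A2.Mod
open Fermat.Agent.S36.H370 Fermat.Agent.S36.Mod3.H370 Fermat.Agent.S36.Eng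

section Abstract

variable {K L : Type*} [Field K] [Field L] [Algebra K L]
variable {O : ValuationSubring K} {y : L} {ϖ : K}

/-- **Rank one over an Eisenstein-split base**: every valuation ring of `L` lying over `O` is
archimedean with respect to the uniformiser of `O`. -/
theorem arch_over775 {Ψ G : O[X]} {a c : O} {n : ℕ} (h : H972.EisData O ϖ y Ψ G a c n)
    (V' : ValuationSubring L) (hV' : ∀ k : K, algebraMap K L k ∈ V' ↔ k ∈ O) (f : L) :
    ∃ k : ℕ, (algebraMap K L ϖ) ^ k * f ∈ V' := by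
  obtain ⟨p, rfl⟩ := h.gen f
  obtain ⟨k, hk⟩ := H972.exists_pow_mul_coeff_mem h.arch h.unif p
  have hlift : Polynomial.C (ϖ ^ k) * p ∈ Polynomial.lifts (O.subtype : O →+* K) := by
    rw [Polynomial.lifts_iff_coeff_lifts]
    intro i
    rw [Polynomial.coeff_C_mul]
    exact ⟨⟨_, hk i⟩, rfl⟩
  obtain ⟨Q, hQ⟩ := (Polynomial.mem_lifts _).1 hlift
  refine ⟨k, ?_⟩
  have h1 := h.coe_mem_of_le V' hV' (H972.evS O y Q)
  rw [H972.coe_evS, H972.eval₂_phi_eq_aeval, hQ, map_mul, Polynomial.aeval_C, map_pow] at h1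
  exact h1

theorem unitAt_mul775 {F : Type*} [Field F] {V : ValuationSubring F} {a b : F}
    (ha : UnitAt V a) (hb : UnitAt V b) : UnitAt V (a * b) :=
  ⟨mul_ne_zero ha.1 hb.1, mul_mem ha.2.1 hb.2.1, by
    rw [mul_inv]
    exact mul_mem ha.2.2 hb.2.2⟩

theorem unitAt_of_mem775 {F : Type*} [Field F] {V : ValuationSubring F} {a : F}
    (ha0 : a ≠ 0) (ha : a ∈ V) (hai : a⁻¹ ∈ V) : UnitAt V a := ⟨ha0, ha, hai⟩

end Abstract

section Main

variable {P : ValuationSubring Qb} {E : IntermediateField ℚ Qb} {M q : ℕ} [NeZero M] [NeZero q]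
  [NeZero (M * q)] {w : RE P E}

/-- **VAL (leaf)**, exact frozen type. -/
theorem leafVal : Mod3.LeafVal := by
  intro P E M q _ _ _ w hStd V₁' V₂' V₁ V₂ V₃ W' W hO
  have hS : Setting P E M q w :=
    ⟨hStd.q_prime, hStd.q_not_dvd, NeZero.ne M, hStd.lies_over, hStd.unram.1.dvr, hStd.unif⟩
  have hSQ : SettingQ P E q w := SettingQ.of_setting hS
  haveI := hS.dvr
  have hT := leafTable P E M q w hStd V₁' V₂' V₁ V₂ V₃ W' W hO
  have hVT := leafVT P E M q w hStd V₁' V₂' V₁ V₂ V₃ W' W hO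
  have hun := unram_of_std370 hSQ hStd.unram
  have hαV₂ : ∀ k, αE E (M * q) q k ∈ V₂ ↔ k ∈ V₁' := fun k => by
    rw [← hO.mid, ValuationSubring.mem_comap]
    rfl
  -- uniformisers
  have hL2 := H553.vinfBasic P E w (M * q * q) (NeZero.ne _) hS.dvr hS.unif V₁ hO.vinf
  have hL2' := H553.vinfBasic P E w (M * q) (NeZero.ne _) hS.dvr hS.unif V₁' hO.vinf'
  have hu₁ : A2.H48.IsUnif V₁ (cE P E (M * q * q) w) := hL2.1
  have hu₃ : A2.H48.IsUnif (V₁.comap (W : FE E (M * q * q) →+* FE E (M * q * q)))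
      (cE P E (M * q * q) w) := H13.isUnif_comap hu₁ W
  have hne' : V₁' ≠ V₂' := by
    intro h
    apply H553.vzeroNe P E M q w hS V₁' W' hO.vinf' hO.fricke'
    rw [← hO.vzero', ← h]
  have hqM : q ∣ M * q := dvd_mul_left q M
  -- the middle valuation ring
  obtain ⟨Vmid, -, -, hunif, ⟨u, hu, hui, hpow⟩, -, -, honly⟩ :=
    H972.mod3_alpha_main hS hun hO.vinf' hO.vinf
  have hV₂ : V₂ = Vmid := (honly V₂ hαV₂).resolve_left hO.mid_ne
  subst hV₂
  -- rank one of `V₂`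
  have harch₂ : ∀ f : FE E (M * q * q),
      ∃ k : ℕ, (H972.jqq E M q - H972.jtop E M q) ^ k * f ∈ V₂ := by
    letI : Algebra (FE E (M * q)) (FE E (M * q * q)) := AlgebraicCurve.algebraAlong (αE E (M * q) q)
    obtain ⟨Ψ, G, hE⟩ := H972.exists_eisSeries q hS.q_prime
    obtain ⟨Ψ', G', a, c, -, -, h⟩ := H972.exists_eisData hS hun hE hO.vinf'
    intro f
    obtain ⟨k, hk⟩ := arch_over775 h V₂ hαV₂ f
    have hw' : algebraMap (FE E (M * q)) (FE E (M * q * q)) (cE P E (M * q) w) =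
        cE P E (M * q * q) w := H972.alpha_cE' (M * q) w
    rw [hw'] at hk
    refine ⟨(q - 1) * k, ?_⟩
    have e : (H972.jqq E M q - H972.jtop E M q) ^ ((q - 1) * k) * f =
        u ^ k * ((cE P E (M * q * q) w) ^ k * f) := by
      rw [pow_mul, hpow, mul_pow]
      ring
    rw [e]
    exact mul_mem (pow_mem hu k) hk
  -- units
  have hj : ∀ (d : ℕ) [NeZero d] (hd : d ∣ M * q * q), UnitAt V₁ (jE E (M * q * q) d hd) :=
    fun d _ hd => ⟨H873.jE_ne_zero E _ d hd, (hL2.2.2 d hd).1, (hL2.2.2 d hd).2⟩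
  have hj' : ∀ (d : ℕ) [NeZero d] (hd : d ∣ M * q), UnitAt V₁' (jE E (M * q) d hd) :=
    fun d _ hd => ⟨H873.jE_ne_zero E _ d hd, (hL2'.2.2 d hd).1, (hL2'.2.2 d hd).2⟩
  have hV₃mem : ∀ f, f ∈ V₃ ↔ W f ∈ V₁ := fun f => by
    rw [hO.vzero, ValuationSubring.mem_comap]
    rfl
  have hV₂'mem : ∀ f, f ∈ V₂' ↔ W' f ∈ V₁' := fun f => by
    rw [hO.vzero', ValuationSubring.mem_comap]
    rfl
  have hβ₂ : ∀ f, βE E (M * q) q f ∈ V₂ ↔ f ∈ V₂' := fun f => by
    rw [← hT.comap_β₂, ValuationSubring.mem_comap]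
    rfl
  have hW3 : ∀ f, UnitAt V₁ (W f) → UnitAt V₃ f := by
    intro f hf
    refine ⟨fun h0 => hf.1 (by rw [h0, map_zero]), (hV₃mem f).mpr hf.2.1, ?_⟩
    rw [hV₃mem, map_inv₀]
    exact hf.2.2
  have hα2 : ∀ f, UnitAt V₁' f → UnitAt V₂ (αE E (M * q) q f) := by
    intro f hf
    refine ⟨(_root_.map_ne_zero _).mpr hf.1, (hαV₂ f).mpr hf.2.1, ?_⟩
    rw [← map_inv₀, hαV₂]
    exact hf.2.2
  have hβ2 : ∀ f, UnitAt V₁' (W' f) → UnitAt V₂ (βE E (M * q) q f) := by
    intro f hf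
    have hf0 : f ≠ 0 := fun h0 => hf.1 (by rw [h0, map_zero])
    refine ⟨(_root_.map_ne_zero _).mpr hf0, (hβ₂ f).mpr ((hV₂'mem f).mpr hf.2.1), ?_⟩
    rw [← map_inv₀, hβ₂, hV₂'mem, map_inv₀]
    exact hf.2.2
  have hαj : αE E (M * q) q (jE E (M * q) 1 (one_dvd _)) = j1 E M q :=
    H553.αE_jE E (M * q) q 1 (one_dvd _)
  have hαjq : αE E (M * q) q (jE E (M * q) q hqM) = jq E M q := alpha_jq_eq370
  have hβjq : βE E (M * q) q (jE E (M * q) q hqM) = jqq E M q := beta_jq_eq370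
  refine
    { dvr₁ := H972.isDiscreteValuationRing_of_isUnif hu₁ (H972.arch_vinf hS.unif hO.vinf)
      dvr₂ := H972.isDiscreteValuationRing_of_isUnif hunif harch₂
      dvr₃ := ?_
      ne₁₂ := hO.mid_ne.symm
      ne₁₃ := ?_
      ne₂₃ := ?_
      unif₁ := unifAt_of_isUnif370 hu₁
      unif₃ := ?_
      ram₂ := ⟨jqq E M q - j1 E M q, hVT.pi_unif, hVT.pi_pow⟩
      x_unit₁ := unitAt_mul775 (unitAt_mul775 (hj 1 _) (hj q _)) (hj (q * q) _)
      x_unit₂ := ?_
      x_unit₃ := ?_ }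
  · -- dvr₃
    rw [hO.vzero]
    refine H972.isDiscreteValuationRing_of_isUnif hu₃ (fun f => ?_)
    obtain ⟨k, hk⟩ := H972.arch_vinf hS.unif hO.vinf (W f)
    refine ⟨k, ?_⟩
    show W ((cE P E (M * q * q) w) ^ k * f) ∈ V₁
    rw [map_mul, map_pow]
    have hW : W (cE P E (M * q * q) w) = cE P E (M * q * q) w := W.commutes _
    rw [hW]
    exact hk
  · -- ne₁₃
    intro h
    apply hne'
    rw [← hT.comap_α₁, h, hT.comap_α₃]
  · -- ne₂₃
    intro h
    apply hne'
    rw [← hT.comap_α₂, h, hT.comap_α₃]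
  · -- unif₃
    rw [hO.vzero]
    exact unifAt_of_isUnif370 hu₃
  · -- x_unit₂
    refine unitAt_mul775 (unitAt_mul775 ?_ ?_) ?_
    · rw [← hαj]
      exact hα2 _ (hj' 1 _)
    · rw [← hαjq]
      exact hα2 _ (hj' q _)
    · rw [← hβjq]
      refine hβ2 _ ?_
      rw [hO.fricke'.1 q M hqM (dvd_mul_right M q) (mul_comm q M)]
      exact hj' M _
  · -- x_unit₃
    refine hW3 _ ?_
    show UnitAt V₁ (W (j1 E M q * jq E M q * jqq E M q))
    rw [map_mul, map_mul]
    refine unitAt_mul775 (unitAt_mul775 ?_ ?_) ?_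
    · have := hO.fricke.1 1 (M * q * q) (one_dvd _) dvd_rfl (one_mul _)
      rw [show j1 E M q = jE E (M * q * q) 1 (one_dvd _) from rfl, this]
      exact hj _ _
    · have := hO.fricke.1 q (M * q) (Dvd.intro_left (M * q) rfl) (Dvd.intro _ rfl)
        (by ring)
      rw [show jq E M q = jE E (M * q * q) q (Dvd.intro_left (M * q) rfl) from rfl, this]
      exact hj _ _
    · have := hO.fricke.1 (q * q) M ⟨M, by ring⟩ ⟨q * q, by ring⟩ (by ring)
      rw [show jqq E M q = jE E (M * q * q) (q * q) ⟨M, by ring⟩ from rfl, this]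
      exact hj _ _

end Main

end Fermat.Agent.S36.Mod3.H775

end
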